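import Fermat.Agent.NEW.Hecke

set_option autoImplicit false

/-!
# S41, task T3 (definitions): the two pull-backs `a^*, b^* : V_m(N) → V_m(N q)`

`aS N q m [f] = [α f]` (`α = heckeAlphaBar`, the inclusion `F_N → F_{Nq}`), `bS N q m [f] = [β f]`
(`β = heckeBetaBar`, `f ↦ f(Q^q)`).  They commute with Galois, with the transition maps and with the good Hecke
operators.
-/

noncomputable section

namespace Fermat.Agent.S41

open AlgebraicCurve ModularCurve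
open Fermat.Agent.S24 (Kb FN iotaK)
open Fermat.Agent.GES Fermat.Agent.NEW

variable (N q : ℕ) [NeZero N] [NeZero q]

/-- `α` on units. -/
def alphaU : (FN N)ˣ →* (FN (N * q))ˣ :=
  Units.map ((heckeAlphaBar Kb N q : FN N →+* FN (N * q)) : FN N →* FN (N * q))

/-- `β` on units. -/
def betaU : (FN N)ˣ →* (FN (N * q))ˣ :=
  Units.map ((heckeBetaBar Kb N q : FN N →+* FN (N * q)) : FN N →* FN (N * q))

@[simp] theorem coe_alphaU (f : (FN N)ˣ) :
    ((alphaU N q f : (FN (N * q))ˣ) : FN (N * q)) = heckeAlphaBar Kb N q (f : FN N) := rfl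

@[simp] theorem coe_betaU (f : (FN N)ˣ) :
    ((betaU N q f : (FN (N * q))ˣ) : FN (N * q)) = heckeBetaBar Kb N q (f : FN N) := rfl

theorem dvd_ord_alpha (m : ℕ) (f : FN N)
    (h : ∀ v : Place Kb (FN N), (m : ℤ) ∣ v.ord f) (w : Place Kb (FN (N * q))) :
    (m : ℤ) ∣ w.ord (heckeAlphaBar Kb N q f) := by
  rw [Place.ord_restrictAlong (heckeAlphaBar Kb N q) (isIntegral_alpha N q) w f]
  exact Dvd.dvd.mul_left (h _) _

theorem alphaU_mem (m : ℕ) : ∀ f ∈ DN N m, alphaU N q f ∈ DN (N * q) m :=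
  fun f hf w => dvd_ord_alpha N q m (f : FN N) hf w

theorem betaU_mem (m : ℕ) : ∀ f ∈ DN N m, betaU N q f ∈ DN (N * q) m :=
  fun f hf w => dvd_ord_beta N q m (f : FN N) hf w

/-- `a^* : V_m(N) → V_m(Nq)`, `[f] ↦ [α f]`. -/
def aS (m : ℕ) : VN N m →+ VN (N * q) m :=
  Vm.map (alphaU N q) (alphaU_mem N q m) dvd_rfl

/-- `b^* : V_m(N) → V_m(Nq)`, `[f] ↦ [β f]`. -/
def bS (m : ℕ) : VN N m →+ VN (N * q) m :=
  Vm.map (betaU N q) (betaU_mem N q m) dvd_rfl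

@[simp] theorem aS_mk (m : ℕ) (f : DN N m) :
    aS N q m (Vm.mk f) = Vm.mk ⟨alphaU N q f, alphaU_mem N q m f f.2⟩ := rfl

@[simp] theorem bS_mk (m : ℕ) (f : DN N m) :
    bS N q m (Vm.mk f) = Vm.mk ⟨betaU N q f, betaU_mem N q m f f.2⟩ := rfl

theorem alpha_galF (σ : GQ) (f : FN N) :
    heckeAlphaBar Kb N q (galF N σ f) = galF (N * q) σ (heckeAlphaBar Kb N q f) := by
  apply Subtype.ext
  rw [coe_heckeAlphaBar, coe_galF, coe_galF, coe_heckeAlphaBar]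

/-- **(E2)** `a^*` commutes with Galois. -/
theorem aS_rhoV (m : ℕ) (σ : GQ) (x : VN N m) :
    aS N q m (rhoV N m σ x) = rhoV (N * q) m σ (aS N q m x) := by
  obtain ⟨f, rfl⟩ := Vm.mk_surjective x
  rw [rhoV_mk, aS_mk, aS_mk, rhoV_mk]
  exact congrArg Vm.mk (Subtype.ext (Units.ext (alpha_galF N q σ _)))

/-- **(E2)** `b^*` commutes with Galois. -/
theorem bS_rhoV (m : ℕ) (σ : GQ) (x : VN N m) :
    bS N q m (rhoV N m σ x) = rhoV (N * q) m σ (bS N q m x) := by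
  obtain ⟨f, rfl⟩ := Vm.mk_surjective x
  rw [rhoV_mk, bS_mk, bS_mk, rhoV_mk]
  exact congrArg Vm.mk (Subtype.ext (Units.ext (beta_galF N q σ _)))

/-- `a^*` commutes with the transition maps. -/
theorem aS_trans {m m' : ℕ} (hm : m' ∣ m) (x : VN N m) :
    aS N q m' (Vm.trans Kb (FN N) hm x) = Vm.trans Kb (FN (N * q)) hm (aS N q m x) := by
  obtain ⟨f, rfl⟩ := Vm.mk_surjective x
  rw [Vm.trans_mk, aS_mk, aS_mk, Vm.trans_mk]

/-- `b^*` commutes with the transition maps. -/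
theorem bS_trans {m m' : ℕ} (hm : m' ∣ m) (x : VN N m) :
    bS N q m' (Vm.trans Kb (FN N) hm x) = Vm.trans Kb (FN (N * q)) hm (bS N q m x) := by
  obtain ⟨f, rfl⟩ := Vm.mk_surjective x
  rw [Vm.trans_mk, bS_mk, bS_mk, Vm.trans_mk]

/-- **(E2)** `a^*` commutes with the good Hecke operators. -/
theorem aS_TV (m ℓ : ℕ) [NeZero m] (hℓ : ℓ.Prime) (h : ¬ ℓ ∣ N * q * m) (x : VN N m) :
    aS N q m (TV N m ℓ x) = TV (N * q) m ℓ (aS N q m x) := by
  obtain ⟨A, σ, hA, hσ⟩ := S54.exists_frob ℓ hℓ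
  have h' : ¬ ℓ ∣ N * m := fun hd => h (by
    rcases (Nat.Prime.dvd_mul hℓ).1 hd with h1 | h1
    · exact Dvd.dvd.mul_right (Dvd.dvd.mul_right h1 q) m
    · exact Dvd.dvd.mul_left h1 _)
  rw [TV_eq_frob (N * q) m ℓ hℓ h A hA σ hσ, TV_eq_frob N m ℓ hℓ h' A hA σ hσ, map_add, map_nsmul,
    aS_rhoV, aS_rhoV]

/-- **(E2)** `b^*` commutes with the good Hecke operators. -/
theorem bS_TV (m ℓ : ℕ) [NeZero m] (hℓ : ℓ.Prime) (h : ¬ ℓ ∣ N * q * m) (x : VN N m) :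
    bS N q m (TV N m ℓ x) = TV (N * q) m ℓ (bS N q m x) := by
  obtain ⟨A, σ, hA, hσ⟩ := S54.exists_frob ℓ hℓ
  have h' : ¬ ℓ ∣ N * m := fun hd => h (by
    rcases (Nat.Prime.dvd_mul hℓ).1 hd with h1 | h1
    · exact Dvd.dvd.mul_right (Dvd.dvd.mul_right h1 q) m
    · exact Dvd.dvd.mul_left h1 _)
  rw [TV_eq_frob (N * q) m ℓ hℓ h A hA σ hσ, TV_eq_frob N m ℓ hℓ h' A hA σ hσ, map_add, map_nsmul,
    bS_rhoV, bS_rhoV]

end Fermat.Agent.S41
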