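import Fermat.Agent.S41.Defs
import Fermat.Agent.S35.C.NP

set_option autoImplicit false

/-!
# S41, task T3 : **(E1)** `a_* a^* = b_* b^* = q + 1`, `a_* b^* = b_* a^* = T_q` on `V_m(N)`
-/

noncomputable section

namespace Fermat.Agent.S41

open AlgebraicCurve ModularCurve
open Fermat.Agent.S24 (Kb FN iotaK)
open Fermat.Agent.GES Fermat.Agent.NEW

variable (N q : ℕ) [NeZero N] [NeZero q]

theorem normA_alpha (hq : q.Prime) (hqN : ¬ q ∣ N) (f : FN N) :
    normA N q (heckeAlphaBar Kb N q f) = f ^ (q + 1) := by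
  let _ := algA N q
  have h : normA N q (heckeAlphaBar Kb N q f) = f ^ Module.finrank (FN N) (FN (N * q)) :=
    Algebra.norm_algebraMap f
  rw [h, finrank_algA N q hq hqN]

theorem coprime_of_prime {N q : ℕ} (hq : q.Prime) (hqN : ¬ q ∣ N) : Nat.Coprime q N :=
  (Nat.Prime.coprime_iff_not_dvd hq).mpr hqN

theorem normB_beta (hq : q.Prime) (hqN : ¬ q ∣ N) (f : FN N) :
    normB N q (heckeBetaBar Kb N q f) = f ^ (q + 1) := by
  rw [S35.normB_eq N q (coprime_of_prime hq hqN), S35.WF_beta N q (coprime_of_prime hq hqN),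
    normA_alpha N q hq hqN]

theorem normB_alpha (hq : q.Prime) (hqN : ¬ q ∣ N) (f : FN N) :
    normB N q (heckeAlphaBar Kb N q f) = heckeF N q f := by
  rw [S35.normB_eq N q (coprime_of_prime hq hqN), S35.WF_alpha N q (coprime_of_prime hq hqN),
    heckeF_apply]

/-- **(E1)** `a_* a^* = q + 1`. -/
theorem alphaV_aS (m : ℕ) [NeZero m] (hq : q.Prime) (hqN : ¬ q ∣ N) (x : VN N m) :
    alphaV N q m (aS N q m x) = (q + 1) • x := by
  obtain ⟨f, rfl⟩ := Vm.mk_surjective x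
  rw [aS_mk, alphaV_mk, ← Vm.mk_pow]
  exact congrArg Vm.mk (Subtype.ext (Units.ext (normA_alpha N q hq hqN _)))

/-- **(E1)** `b_* b^* = q + 1`. -/
theorem betaV_bS (m : ℕ) [NeZero m] (hq : q.Prime) (hqN : ¬ q ∣ N) (x : VN N m) :
    betaV N q m (bS N q m x) = (q + 1) • x := by
  obtain ⟨f, rfl⟩ := Vm.mk_surjective x
  rw [bS_mk, betaV_mk, ← Vm.mk_pow]
  exact congrArg Vm.mk (Subtype.ext (Units.ext (normB_beta N q hq hqN _)))

/-- **(E1)** `a_* b^* = T_q` (no hypothesis on `q`). -/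
theorem alphaV_bS (m : ℕ) [NeZero m] (x : VN N m) :
    alphaV N q m (bS N q m x) = TV N m q x := by
  obtain ⟨f, rfl⟩ := Vm.mk_surjective x
  rw [bS_mk, alphaV_mk, TV_mk]
  rfl

/-- **(E1)** `b_* a^* = T_q`. -/
theorem betaV_aS (m : ℕ) [NeZero m] (hq : q.Prime) (hqN : ¬ q ∣ N) (x : VN N m) :
    betaV N q m (aS N q m x) = TV N m q x := by
  obtain ⟨f, rfl⟩ := Vm.mk_surjective x
  rw [aS_mk, betaV_mk, TV_mk]
  exact congrArg Vm.mk (Subtype.ext (Units.ext (normB_alpha N q hq hqN _)))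

/-- **(E2)** in the shape of `S41.Defs`. -/
theorem e2 (m : ℕ) [NeZero m] : E2 N q m :=
  fun ℓ hℓ h x => ⟨aS_TV N q m ℓ hℓ h x, bS_TV N q m ℓ hℓ h x⟩

/-- **(E1)** in the shape of `S41.Defs`. -/
theorem e1 (p : ℕ) [NeZero p] (hq : q.Prime) (hqN : ¬ q ∣ N) : E1 N q p :=
  ⟨alphaV_aS N q p hq hqN, betaV_bS N q p hq hqN, alphaV_bS N q p, betaV_aS N q p hq hqN⟩

end Fermat.Agent.S41
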